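import Fermat.Agent.A2.H909.TateUnip
import Fermat.Agent.A2.H129.KummerJZero

/-!
# Cell A2, piece XFER (helper909), part 3: the wall in Kummer form feeds `UnipotentAtExactPrimes`

`unipotentAtExactPrimes_JZero`: if for every prime `q ≠ p` exactly dividing `N` and every `σ` in
an inertia group at `q` the Kummer form `H129.A2Kummer N (p ^ n) σ` of the wall holds for all `n`,
then `UnipotentAtExactPrimes N p (JZero N)`, the hypothesis of `exists_adicEigenModule_unip`.
-/

set_option autoImplicit false

namespace Fermat.Agent.A2.H909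

open ModularCurve

/-- The wall A2 in Kummer form, for all primes `q ≠ p` exactly dividing `N`, all inertia elements
at `q` and all powers of `p`. -/
def WallKummer (N p : ℕ) : Prop :=
  ∀ q : ℕ, q.Prime → q ≠ p → q ∣ N → ¬ q ^ 2 ∣ N →
    ∀ P : ValuationSubring (AlgebraicClosure ℚ), P.LiesOverPrime q →
      ∀ σ ∈ P.inertiaSubgroupIn ℚ, ∀ n : ℕ, Fermat.Agent.A2.H129.A2Kummer N (p ^ n) σ

theorem unipotentAtExactPrimes_JZero (N p : ℕ) (hp : p ≠ 0) (h : WallKummer N p) :
    UnipotentAtExactPrimes N p (JZero N) := by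
  intro q hq hqp hqN hq2 P hP σ hσ x hx
  obtain ⟨n, hn⟩ := hx
  exact Fermat.Agent.A2.H129.unipotent_JZero_of_kummer N (p ^ n) (pow_ne_zero n hp) σ
    (h q hq hqp hqN hq2 P hP σ hσ n) x hn

end Fermat.Agent.A2.H909
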