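import Fermat.Agent.A2.H909.TateUnip
import Fermat.Agent.S30.H990.Glue
import Fermat.Agent.S34.H193.Glue
import Fermat.Agent.S34.H733.Glue

/-!
# Cell A2, piece XFER (helper909), part 2: from unipotent adic eigenmodules to the inputs of S34

`HasUnipotentAdicEigenModules` is `H990.HasAdicEigenModules` (the output of the Galois tower, input
of the S30 top glue) together with the unipotence `(ρ σ - 1)² = 0` of inertia at the primes
`q ≠ p` exactly dividing the level (the output of the wall A2, see `TateUnip.lean`).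

* `exists_galoisRepAdic_unip`: helper990's extraction of the two-dimensional representation,
  with the extra conclusion `IsUnipotentOnInertiaAt q`.
* `s30U_of : ChebWeak → HasUnipotentAdicEigenModules → S34.H733.S30UStatement`
* `a2Input_of : ChebWeak → HasUnipotentAdicEigenModules → S34.H193.A2Input`

So both top glues of row S34 (`H193.unipotent_of_parts`, `H733.unipotent_of_parts`) are fed by
`HasUnipotentAdicEigenModules`.
-/

set_option autoImplicit false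

namespace Fermat.Agent.A2.H909

open Polynomial Fermat.Agent.S30.H990 Fermat.Agent.S55.H414

/-- The tower hypothesis with unipotent inertia at the primes exactly dividing the level. -/
def HasUnipotentAdicEigenModules : Prop :=
  ∀ (p : ℕ) [Fact p.Prime] (N : ℕ) [NeZero N] (S : Finset ℕ)
    (_hpS : p ∈ S) (_hNS : ∀ q : ℕ, q.Prime → q ∣ N → q ∈ S)
    (𝒪' : Type) [CommRing 𝒪'] [IsDomain 𝒪'] [IsDiscreteValuationRing 𝒪']
    [IsAdicComplete (IsLocalRing.maximalIdeal 𝒪') 𝒪'] [Finite (IsLocalRing.ResidueField 𝒪')]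
    [CharZero 𝒪'] (_hp𝒪' : (p : 𝒪') ∈ IsLocalRing.maximalIdeal 𝒪')
    (χ : CuspForm.heckeAlgebra N 2 (↑S : Set ℕ) →+* 𝒪'),
    ∃ E : AdicEigenModule p N S 𝒪' χ, IsUnipotentEigenModule E

/-- Forgetting the unipotence. -/
theorem hasAdicEigenModules_of_unip (h : HasUnipotentAdicEigenModules) : HasAdicEigenModules := by
  intro p _ N _ S hpS hNS 𝒪' _ _ _ _ _ _ hp𝒪' χ
  obtain ⟨E, -⟩ := h p N S hpS hNS 𝒪' hp𝒪' χ
  exact ⟨E⟩

section Assembly

variable {p N : ℕ} [Fact p.Prime] [NeZero N] {S : Finset ℕ}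
  {𝒪 : Type} [CommRing 𝒪] [IsDomain 𝒪] [IsDiscreteValuationRing 𝒪]
  [IsAdicComplete (IsLocalRing.maximalIdeal 𝒪) 𝒪] [Finite (IsLocalRing.ResidueField 𝒪)]
  {χ : CuspForm.heckeAlgebra N 2 (↑S : Set ℕ) →+* 𝒪}

/-- `(X - 1) ^ 2` in the normal form of the extraction. -/
theorem sq_X_sub_one_h909 {R : Type*} [CommRing R] :
    (X : R[X]) ^ 2 - C (2 : R) * X + C (1 : R) = (X - 1) ^ 2 := by
  rw [map_ofNat, map_one]
  ring

/-- From a unipotent adic eigenmodule to a two-dimensional adic Galois representation with the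
Eichler–Shimura Frobenius polynomials, unramified outside `N p`, unipotent on inertia at the
primes `q ≠ p` exactly dividing `N`. -/
theorem exists_galoisRepAdic_unip [CharZero 𝒪] (hcheb : ChebWeak) (hpS : p ∈ S)
    (hNS : ∀ q : ℕ, q.Prime → q ∣ N → q ∈ S)
    (hp𝒪 : (p : 𝒪) ∈ IsLocalRing.maximalIdeal 𝒪) (E : AdicEigenModule p N S 𝒪 χ)
    (hE : IsUnipotentEigenModule E) :
    ∃ ρ : GaloisRepAdic 𝒪,
      (∀ (ℓ : ℕ) (hℓ : ℓ.Prime) (hℓN : ¬ ℓ ∣ N) (hℓS : ℓ ∉ (↑S : Set ℕ)),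
        ∀ A : ValuationSubring (AlgebraicClosure ℚ), A.LiesOverPrime ℓ →
          ∀ σ : AlgebraicClosure ℚ ≃ₐ[ℚ] AlgebraicClosure ℚ, A.IsFrobeniusAt σ ℓ →
            LinearMap.charpoly (ρ.ρ σ) =
              X ^ 2 - C (χ (CuspForm.heckeAlgebra.T hℓ hℓN hℓS)) * X + C ((ℓ : 𝒪))) ∧
      (∀ q : ℕ, q.Prime → ¬ q ∣ N → q ≠ p → ρ.IsUnramifiedAt q) ∧
      (∀ q : ℕ, q.Prime → q ≠ p → q ∣ N → ¬ q ^ 2 ∣ N → ρ.IsUnipotentOnInertiaAt q) := by
  obtain ⟨d, hdfrob, hdinert, hdc, hdcont⟩ := exists_cyclo p 𝒪 hp𝒪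
  have hrel : ∀ g : GQ, ∃ a, Fermat.Agent.S30.H990.Rel E.ρ d g a := fun g =>
    exists_rel_of_mod E.ρ d g (fun n => exists_rel_mod hcheb hpS hNS E d hdfrob hdcont g n)
  have h2 : (2 : 𝒪) ≠ 0 := two_ne_zero
  obtain ⟨T⟩ := exists_twoDim E.ρ d h2 hrel complexConjugation complexConjugation_mul_self hdc
  refine ⟨{ V := T.V
            finrank_eq := T.finrank_eq
            ρ := T.ρ₂
            isAdicContinuous := ?_ }, ?_, ?_, ?_⟩
  · intro n
    obtain ⟨L₁, hL₁fin, hL₁⟩ := E.cont n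
    have : FiniteDimensional ℚ L₁ := hL₁fin
    refine ⟨L₁ ⊔ cycloLevel (p ^ n),
      IntermediateField.finiteDimensional_sup L₁ (cycloLevel (p ^ n)), fun σ hσ v => ?_⟩
    refine T.cong (IsLocalRing.maximalIdeal 𝒪 ^ n) σ ?_ ?_ v
    · exact hL₁ σ (fun x hx => hσ x ((le_sup_left : L₁ ≤ L₁ ⊔ cycloLevel (p ^ n)) hx))
    · exact hdcont n σ (fun x hx =>
        hσ x ((le_sup_right : cycloLevel (p ^ n) ≤ L₁ ⊔ cycloLevel (p ^ n)) hx))
  · intro ℓ hℓ hℓN hℓS A hA σ hσ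
    have hℓp : ℓ ≠ p := fun h => hℓS (Finset.mem_coe.mpr (h ▸ hpS))
    have hr : Fermat.Agent.S30.H990.Rel E.ρ d σ (χ (CuspForm.heckeAlgebra.T hℓ hℓN hℓS)) := by
      unfold Fermat.Agent.S30.H990.Rel
      rw [hdfrob ℓ hℓ hℓp A hA σ hσ]
      exact E.frob ℓ hℓ hℓN hℓS A hA σ hσ
    have := T.charpoly_eq σ _ hr
    rw [hdfrob ℓ hℓ hℓp A hA σ hσ] at this
    exact this
  · intro q hq hqN hqp P hP σ hσ
    have h1 : E.ρ σ = 1 := E.unram q hq hqN hqp P hP σ hσ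
    have h2 : d σ = 1 := hdinert q hq hqp P hP σ hσ
    have h3 := T.cong ⊥ σ (fun v => by rw [h1]; simp) (by rw [h2]; simp)
    ext v
    have h4 := h3 v
    rw [Submodule.bot_smul, Submodule.mem_bot, sub_eq_zero] at h4
    simpa using h4
  · intro q hq hqp hqN hq2 P hP σ hσ
    have h1 : (E.ρ σ - 1) * (E.ρ σ - 1) = 0 := hE q hq hqp hqN hq2 P hP σ hσ
    have h2 : d σ = 1 := hdinert q hq hqp P hP σ hσ
    have hr : Fermat.Agent.S30.H990.Rel E.ρ d σ 2 := by
      unfold Fermat.Agent.S30.H990.Rel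
      rw [h2, Units.val_one, one_smul, ← h1, ofNat_smul_eq_nsmul 𝒪 2 (E.ρ σ)]
      noncomm_ring
    have h3 := T.charpoly_eq σ 2 hr
    rw [h2, Units.val_one] at h3
    show LinearMap.charpoly (T.ρ₂ σ) = (X - 1) ^ 2
    rw [h3]
    exact sq_X_sub_one_h909

end Assembly

/-- **The strengthened S30 (helper733's interface of row S34)** from the Chebotarev hypothesis
and the unipotent adic eigenmodules. -/
theorem s30U_of (hcheb : ChebWeak) (hmod : HasUnipotentAdicEigenModules) :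
    Fermat.Agent.S34.H733.S30UStatement := by
  intro p _ N _ S hpS hNS 𝒪' _ _ _ _ _ _ hp𝒪' χ
  obtain ⟨E, hE⟩ := hmod p N S hpS hNS 𝒪' hp𝒪' χ
  obtain ⟨ρ, hρ1, -, hρ3⟩ := exists_galoisRepAdic_unip hcheb hpS hNS hp𝒪' E hE
  exact ⟨𝒪', inferInstance, inferInstance, inferInstance, inferInstance, inferInstance,
    inferInstance, Algebra.id 𝒪', Module.Finite.self 𝒪', isLocalHom_id 𝒪',
    Function.injective_id, ρ, hρ1, hρ3⟩

/-- **The input `A2Input` of helper193's top glue of row S34** from the Chebotarev hypothesis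
and the unipotent adic eigenmodules. -/
theorem a2Input_of (hcheb : ChebWeak) (hmod : HasUnipotentAdicEigenModules) :
    Fermat.Agent.S34.H193.A2Input := by
  intro p _ N _ S hpS hNS 𝒪' _ _ _ _ _ _ hp𝒪' χ q hq hqp hqN hq2
  obtain ⟨E, hE⟩ := hmod p N S hpS hNS 𝒪' hp𝒪' χ
  obtain ⟨ρ, hρ1, -, hρ3⟩ := exists_galoisRepAdic_unip hcheb hpS hNS hp𝒪' E hE
  refine ⟨𝒪', inferInstance, inferInstance, inferInstance, RingHom.id 𝒪',
    Function.injective_id, ρ, ?_, hρ3 q hq hqp hqN hq2⟩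
  intro ℓ hℓ hℓN hℓS B hB σ hσ
  exact hρ1 ℓ hℓ hℓN hℓS B hB σ hσ

end Fermat.Agent.A2.H909
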