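import Fermat.Agent.A2.H909.S30U
import Fermat.Agent.S30.H990.Cheb
import Fermat.Agent.Lib.Cheb.FrobeniusDivision

/-!
# Cell A2, piece XFER (helper909), part 4: gated form of the frozen statement S34

`s34_of_unip_pts`: the frozen statement S34 (verbatim binders) from
* `HasUnipotentAdicEigenModules` (Galois tower + wall A2, see `TateUnip.lean`, `S30U.lean`),
* `PTS` for the Hecke algebra (row S31, pieces D + SS),
using the Frobenius division theorem of the shared library CHEB (on main) and helper193's top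
glue `S34.H193.unipotent_of_parts`.
-/

set_option autoImplicit false

open IsLocalRing

namespace Fermat.Agent.A2.H909

/-- The weak Chebotarev hypothesis of the S30 glue, from the shared library CHEB. -/
theorem chebWeak_h909 : Fermat.Agent.S30.H990.ChebWeak :=
  Fermat.Agent.S30.H990.chebWeak_of_frobeniusDivision Fermat.Agent.Lib.Cheb.frobeniusDivision

/-- `A2Input` from the unipotent adic eigenmodules alone. -/
theorem a2Input_of_unip (hmod : HasUnipotentAdicEigenModules) : Fermat.Agent.S34.H193.A2Input :=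
  a2Input_of chebWeak_h909 hmod

/-- `S30UStatement` from the unipotent adic eigenmodules alone. -/
theorem s30U_of_unip (hmod : HasUnipotentAdicEigenModules) :
    Fermat.Agent.S34.H733.S30UStatement :=
  s30U_of chebWeak_h909 hmod

/-- **Frozen statement S34, gated**: from the unipotent adic eigenmodules and `PTS`. -/
theorem s34_of_unip_pts (hmod : HasUnipotentAdicEigenModules)
    {𝒪 : Type} [CommRing 𝒪] [IsDomain 𝒪] [IsDiscreteValuationRing 𝒪]
    [IsAdicComplete (maximalIdeal 𝒪) 𝒪] [Finite (ResidueField 𝒪)] [CharZero 𝒪]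
    {p : ℕ} (hp : p.Prime) (hp𝒪 : (p : 𝒪) ∈ maximalIdeal 𝒪)
    {N : ℕ} [NeZero N] {S : Finset ℕ} (hpS : p ∈ S) (hNS : ∀ q : ℕ, q.Prime → q ∣ N → q ∈ S)
    {θ : CuspForm.heckeAlgebra N 2 (↑S : Set ℕ) →+* ResidueField 𝒪}
    {T : Type} [CommRing T] [IsLocalRing T] [IsNoetherianRing T]
    [IsAdicComplete (maximalIdeal T) T] [Algebra 𝒪 T] [IsLocalHom (algebraMap 𝒪 T)]
    [Module.Finite 𝒪 T] [Module.Free 𝒪 T]
    (hPTS : Fermat.Agent.S31.PTS p (CuspForm.heckeAlgebra N 2 (↑S : Set ℕ)))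
    (H : CuspForm.HeckeGaloisRepDatum N (↑S : Set ℕ) 𝒪 θ T)
    (q : ℕ) (hq : q.Prime) (hqp : q ≠ p) (hqN : q ∣ N) (hq2 : ¬ q ^ 2 ∣ N) :
    H.ρ.IsUnipotentOnInertiaAt q :=
  Fermat.Agent.S34.H193.unipotent_of_parts (a2Input_of_unip hmod)
    Fermat.Agent.Lib.Cheb.frobeniusDivision hp hp𝒪 hpS hNS hPTS H q hq hqp hqN hq2

end Fermat.Agent.A2.H909
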