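import Fermat.Agent.S30.H349.Adapter

/-!
# Cell A2, piece XFER (helper909), part 1: unipotence passes to the Tate eigenmodule

`helper349`'s abstract Tate eigenmodule `tateEigen O p T a` (the `a`-eigenpart of `T_p J ⊗ O`)
carries the action `tateRho` of `G`.  Every relation `(g - 1)(h - 1) = 0` on the `p`-power torsion
of `J` gives `(ρ g - 1)(ρ h - 1) = 0` on the Tate eigenmodule.

`exists_adicEigenModule_unip`: the adic eigenmodule of `H349.nonempty_adicEigenModule_of_tower`
together with the unipotence of inertia at the primes `q ≠ p` exactly dividing the level, as soon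
as inertia at these primes acts unipotently (of echelon two) on the `p`-power torsion of `J`
(= wall A2 for `J = JZero N`).
-/

set_option autoImplicit false

noncomputable section

namespace Fermat.Agent.A2.H909

open TensorProduct IsLocalRing Fermat.Agent.S30.H349

section Relations

variable {O : Type*} [CommRing O] [IsDomain O] [CharZero O]
variable {J : Type*} [AddCommGroup J] {p : ℕ} {ι : Type*} {T : ι → J →+ J} {a : ι → O}
variable {G : Type*} [Group G] [DistribMulAction G J]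

/-- A relation `(g - 1)(h - 1) = 0` on the `p`-power torsion of `J` gives
`(ρ g - 1)(ρ h - 1) = 0` on the Tate eigenmodule. -/
lemma tateRho_sub_one_mul_sub_one (hTG : ∀ i (g : G) x, T i (g • x) = g • T i x) (g h : G)
    (hgh : ∀ x : J, (∃ n : ℕ, p ^ n • x = 0) → g • (h • x - x) = h • x - x) :
    (tateRho O p a hTG g - 1) * (tateRho O p a hTG h - 1) = 0 := by
  refine LinearMap.ext fun v => Subtype.ext (funext fun n => ?_)
  have hR := tateEigen_bcH_apply_eq_zero (O := O) (T := T) (a := a)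
    ((gactH g - AddMonoidHom.id J).comp (gactH h - AddMonoidHom.id J)) n
    (fun x hx => by
      have := hgh x ⟨n, hx⟩
      simp only [AddMonoidHom.comp_apply, AddMonoidHom.sub_apply, AddMonoidHom.id_apply,
        DistribSMul.toAddMonoidHom_apply]
      rw [this, sub_self]) v.2
  rw [bcH_comp, bcH_sub, bcH_sub, bcH_id, bcH_id] at hR
  simpa [sub_eq_add_neg] using hR

/-- The unipotent case `g = h`: `(ρ g - 1)² = 0`. -/
lemma tateRho_unip (hTG : ∀ i (g : G) x, T i (g • x) = g • T i x) (g : G)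
    (hg : ∀ x : J, (∃ n : ℕ, p ^ n • x = 0) → g • (g • x - x) = g • x - x) :
    (tateRho O p a hTG g - 1) * (tateRho O p a hTG g - 1) = 0 :=
  tateRho_sub_one_mul_sub_one hTG g g hg

end Relations

section Tower

variable {O : Type} [CommRing O] [IsDomain O] [IsDiscreteValuationRing O] [CharZero O]
  [IsAdicComplete (maximalIdeal O) O] [Finite (ResidueField O)]
variable {J : Type} [AddCommGroup J] [Module ModularCurve.HeckeAlg J] [DistribMulAction GQ J]
  [SMulCommClass GQ ModularCurve.HeckeAlg J]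

/-- Inertia at the primes `q ≠ p` exactly dividing `N` acts unipotently (of echelon two) on the
`p`-power torsion of the Galois module `J`.  For `J = JZero N` this is the wall A2. -/
def UnipotentAtExactPrimes (N p : ℕ) (J : Type) [AddCommGroup J] [DistribMulAction GQ J] :
    Prop :=
  ∀ q : ℕ, q.Prime → q ≠ p → q ∣ N → ¬ q ^ 2 ∣ N →
    ∀ P : ValuationSubring (AlgebraicClosure ℚ), P.LiesOverPrime q →
      ∀ σ ∈ P.inertiaSubgroupIn ℚ, ∀ x : J, (∃ n : ℕ, p ^ n • x = 0) →
        σ • (σ • x - x) = σ • x - x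

/-- An adic eigenmodule on which inertia at the primes `q ≠ p` exactly dividing the level acts
unipotently of echelon two. -/
def IsUnipotentEigenModule {p N : ℕ} [NeZero N] {S : Finset ℕ}
    {χ : CuspForm.heckeAlgebra N 2 (↑S : Set ℕ) →+* O}
    (E : Fermat.Agent.S30.H990.AdicEigenModule p N S O χ) : Prop :=
  ∀ q : ℕ, q.Prime → q ≠ p → q ∣ N → ¬ q ^ 2 ∣ N →
    ∀ P : ValuationSubring (AlgebraicClosure ℚ), P.LiesOverPrime q →
      ∀ σ ∈ P.inertiaSubgroupIn ℚ, (E.ρ σ - 1) * (E.ρ σ - 1) = 0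

/-- **Adic eigenmodule with unipotent inertia**: the hypotheses of
`H349.nonempty_adicEigenModule_of_tower` together with the wall A2 for `J`. -/
theorem exists_adicEigenModule_unip (p : ℕ) (hp : p.Prime) (N : ℕ) [NeZero N]
    (S : Finset ℕ) (hpS : p ∈ S) (hpO : (p : O) ∈ maximalIdeal O)
    (χ : CuspForm.heckeAlgebra N 2 (↑S : Set ℕ) →+* O)
    (hunr : ModularCurve.UnramifiedOutside (K := ℚ) (L := AlgebraicClosure ℚ) N p J)
    (hfrob : ModularCurve.FrobeniusQuadratic (K := ℚ) (L := AlgebraicClosure ℚ) N p J)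
    (hfin : {x : J | p • x = 0}.Finite)
    (hsm : ∀ x : J, (∃ n : ℕ, p ^ n • x = 0) →
      ∃ L : IntermediateField ℚ (AlgebraicClosure ℚ), FiniteDimensional ℚ L ∧
        ∀ σ : GQ, (∀ y ∈ L, σ y = y) → σ • x = x)
    (hocc : ∀ n : ℕ, ∃ w : O ⊗[ℤ] J, (p : O) ^ (n + 1) • w = 0 ∧ (p : O) ^ n • w ≠ 0 ∧
      ∀ (ℓ : ℕ) (hℓ : ℓ.Prime) (hℓN : ¬ ℓ ∣ N) (hℓS : ℓ ∉ (↑S : Set ℕ)),
        bcH O (heckeHom J ⟨ℓ, hℓ⟩) w = χ (CuspForm.heckeAlgebra.T hℓ hℓN hℓS) • w)
    (hunip : UnipotentAtExactPrimes N p J) :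
    ∃ E : Fermat.Agent.S30.H990.AdicEigenModule p N S O χ, IsUnipotentEigenModule E := by
  classical
  -- the explicit Tate eigenmodule of helper349
  let ι : Type := {ℓ : Nat.Primes // ¬ (ℓ : ℕ) ∣ N ∧ (ℓ : ℕ) ∉ (↑S : Set ℕ)}
  let T : ι → J →+ J := fun i => heckeHom J i.1
  let a : ι → O := fun i => χ (CuspForm.heckeAlgebra.T i.1.2 i.2.1 i.2.2)
  have hTG : ∀ (i : ι) (g : GQ) (x : J), T i (g • x) = g • T i x :=
    fun i g x => (smul_comm g (ModularCurve.heckeGen i.1) x).symm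
  have hJ : Finite (torsJ J p) := by
    have : (torsJ J p : Set J) = {x : J | p • x = 0} := by
      ext x; exact mem_torsJ
    exact (this ▸ hfin : (torsJ J p : Set J).Finite).to_subtype
  have hocc' : ∀ n : ℕ, ∃ w : O ⊗[ℤ] J, (p : O) ^ (n + 1) • w = 0 ∧ (p : O) ^ n • w ≠ 0 ∧
      ∀ i, bcH O (T i) w = a i • w := fun n => by
    obtain ⟨w, h1, h2, h3⟩ := hocc n
    exact ⟨w, h1, h2, fun i => h3 i.1.1 i.1.2 i.2.1 i.2.2⟩
  have hdvd : ∀ q : ℕ, q.Prime → ¬ q ∣ N → q ≠ p → ¬ q ∣ N * p := by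
    intro q hq hqN hqp h
    rcases (Nat.Prime.dvd_mul hq).1 h with h | h
    · exact hqN h
    · exact hqp ((Nat.prime_dvd_prime_iff_eq hq hp).1 h)
  haveI : Module.Free O (tateEigen O p T a) := tateEigen_free hp.ne_zero hpO hJ
  haveI : Module.Finite O (tateEigen O p T a) := tateEigen_finite hp.ne_zero hpO hJ
  haveI : Nontrivial (tateEigen O p T a) := tateEigen_nontrivial hp.ne_zero hJ hocc'
  refine ⟨{
    M := tateEigen O p T a
    ρ := tateRho O p a hTG
    cont := tateRho_isAdicContinuous hpO a hTG hJ hsm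
    unram := fun q hq hqN hqp P hP σ hσ =>
      tateRho_eq_one hTG σ fun x hx => hunr q hq (hdvd q hq hqN hqp) P hP σ hσ x hx
    frob := fun ℓ hℓ hℓN hℓS A hA σ hσ =>
      tateRho_quadratic hTG σ ⟨⟨ℓ, hℓ⟩, hℓN, hℓS⟩ ℓ fun x hx =>
        hfrob ℓ hℓ (hdvd ℓ hℓ hℓN (fun h => hℓS (h ▸ hpS))) A hA σ hσ x hx }, ?_⟩
  intro q hq hqp hqN hq2 P hP σ hσ
  exact tateRho_unip hTG σ fun x hx => hunip q hq hqp hqN hq2 P hP σ hσ x hx

end Tower

end Fermat.Agent.A2.H909
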